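import Fermat.Agent.S41.Deg
import Fermat.Agent.S41.Ihara.Main

/-!
# S41 / wiring : the hypotheses `hEK`, `hEZ` of `abstract_level_raising` from the weak Ihara lemma
-/

set_option autoImplicit false

open CongruenceSubgroup Matrix ModularCurve.Period
open scoped MatrixGroups TensorProduct
open Fermat.Agent.GAL.HK

namespace Fermat.Agent.S41

/-- kernel of `(φ₁, φ₂) ↦ res₁ φ₁ + res₂ φ₂` is glued. -/
theorem gluedHom_of_res {N q : ℕ} [NeZero q] {A : Type*} [AddCommGroup A]
    {φ₁ φ₂ : Additive (Gamma0 N) →+ A} (h : res₁ N q A φ₁ + res₂ N q A φ₂ = 0) :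
    Ihara.GluedHom q φ₁ φ₂ := by
  intro g g' h00 h01 h10 h11
  have hq0 : (q : ℤ) ≠ 0 := by exact_mod_cast NeZero.ne q
  have hmem : (g : SL(2, ℤ)) ∈ Gamma0 (N * q) := by
    rw [Gamma0_mem, ZMod.intCast_zmod_eq_zero_iff_dvd, h10]
    obtain ⟨c, hc⟩ := Ihara.Gamma0_dvd g'
    rw [hc]
    exact ⟨c, by push_cast; ring⟩
  have h1 := DFunLike.congr_fun h (Additive.ofMul (⟨(g : SL(2, ℤ)), hmem⟩ : Gamma0 (N * q)))
  rw [AddMonoidHom.add_apply, res₁_apply, res₂_apply, AddMonoidHom.zero_apply] at h1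
  have e1 : Subgroup.inclusion (Gamma0_mul_le N q) (⟨(g : SL(2, ℤ)), hmem⟩ : Gamma0 (N * q)) = g :=
    Subtype.ext rfl
  have e2 : dconj N q (⟨(g : SL(2, ℤ)), hmem⟩ : Gamma0 (N * q)) = g' := by
    apply Ihara.Gamma0_ext
    · exact h00.symm
    · exact h01.symm
    · show (g : SL(2, ℤ)) 1 0 / (q : ℤ) = _
      rw [h10, Int.mul_ediv_cancel_left _ hq0]
    · exact h11.symm
  rw [e1, e2] at h1
  exact h1

section ev

variable (K : Type*) [CommRing K]

theorem evK_tmul' (M : ℕ) (c : K) (x : Lat M) :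
    evK K M (c ⊗ₜ x) = (AddMonoidHom.mulLeft c).comp
      ((Int.castAddHom K).comp (x : Additive (Gamma0 M) →+ ℤ)) := rfl

theorem wire_evK_isParabolicHom (M : ℕ) (u : K ⊗[ℤ] Lat M) :
    IsParabolicHom (Gamma0 M) (evK K M u) := by
  intro γ hγ
  induction u using TensorProduct.induction_on with
  | zero => simp
  | tmul c x => rw [evK_tmul, x.2 γ hγ]; simp
  | add u v hu hv => rw [map_add, AddMonoidHom.add_apply, hu, hv, add_zero]

theorem wire_evK_lres₁ (N q : ℕ) (u : K ⊗[ℤ] Lat N) :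
    evK K (N * q) ((lres₁ N q).baseChange K u) = res₁ N q K (evK K N u) := by
  induction u using TensorProduct.induction_on with
  | zero => simp
  | tmul c x => rfl
  | add u v hu hv => rw [map_add, map_add, map_add, map_add, hu, hv]

theorem wire_evK_lres₂ (N q : ℕ) [NeZero q] (u : K ⊗[ℤ] Lat N) :
    evK K (N * q) ((lres₂ N q).baseChange K u) = res₂ N q K (evK K N u) := by
  induction u using TensorProduct.induction_on with
  | zero => simp
  | tmul c x => rfl
  | add u v hu hv => rw [map_add, map_add, map_add, map_add, hu, hv]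

theorem wire_evK_latT (M : ℕ) {ℓ : ℕ} (hℓ : ℓ.Prime) (hℓM : ¬ ℓ ∣ M) (u : K ⊗[ℤ] Lat M) :
    evK K M ((latT M hℓ hℓM).baseChange K u) = cohT M hℓ hℓM K (evK K M u) := by
  induction u using TensorProduct.induction_on with
  | zero => simp
  | tmul c x =>
    rw [LinearMap.baseChange_tmul, evK_tmul', evK_tmul', ← AddMonoidHom.comp_assoc,
      ← AddMonoidHom.comp_assoc]
    exact ((datumT M hℓ hℓM).T_comp _ _).symm
  | add u v hu hv => rw [map_add, map_add, map_add, map_add, hu, hv]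

theorem wire_evK_latU (M : ℕ) {q : ℕ} (hq : q.Prime) (hqM : q ∣ M) (u : K ⊗[ℤ] Lat M) :
    evK K M ((latU M hq hqM).baseChange K u) = cohU M hq hqM K (evK K M u) := by
  induction u using TensorProduct.induction_on with
  | zero => simp
  | tmul c x =>
    rw [LinearMap.baseChange_tmul, evK_tmul', evK_tmul', ← AddMonoidHom.comp_assoc,
      ← AddMonoidHom.comp_assoc]
    exact ((datumU M hq hqM).T_comp _ _).symm
  | add u v hu hv => rw [map_add, map_add, map_add, map_add, hu, hv]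

theorem wire_evK_injective (M : ℕ) [NeZero M] : Function.Injective (evK K M) := by
  obtain ⟨𝔅⟩ := exists_parBasis M
  rw [injective_iff_map_eq_zero]
  intro u hu
  -- the basis of `K ⊗ Lat M`
  let b : Module.Basis (Fin 𝔅.r) ℤ (Lat M) := Module.Basis.ofEquivFun 𝔅.latEquiv
  let bK : Module.Basis (Fin 𝔅.r) K (K ⊗[ℤ] Lat M) := b.baseChange K
  have hb : ∀ (j i : Fin 𝔅.r),
      ((b j : Lat M) : Additive (Gamma0 M) →+ ℤ) (Additive.ofMul (𝔅.g i)) = if i = j then 1 else 0 := by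
    intro j i
    have h1 : 𝔅.latEquiv (b j) = Pi.single j 1 := by
      simp [b]
    have h2 := congrFun h1 i
    rw [Pi.single_apply] at h2
    exact h2
  rw [← bK.sum_repr u] at hu ⊢
  have hcoef : ∀ i, bK.repr u i = 0 := by
    intro i
    have h1 := DFunLike.congr_fun hu (Additive.ofMul (𝔅.g i))
    rw [map_sum, AddMonoidHom.finsetSum_apply, AddMonoidHom.zero_apply] at h1
    rw [Finset.sum_eq_single i] at h1
    · rw [map_smul, AddMonoidHom.smul_apply, Module.Basis.baseChange_apply, evK_tmul, hb] at h1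
      simpa using h1
    · intro j _ hji
      rw [map_smul, AddMonoidHom.smul_apply, Module.Basis.baseChange_apply, evK_tmul, hb,
        if_neg (Ne.symm hji)]
      simp
    · intro h; exact absurd (Finset.mem_univ i) h
  simp [hcoef]

end ev

section wiring

variable {N q l : ℕ} [NeZero N] [NeZero q] (hq : q.Prime) (hqN : ¬ q ∣ N) (hl : l.Prime)
    (hl2 : l ≠ 2) (hlN : ¬ l ∣ N) (hlq : l ≠ q)

include hq hqN hl2 hlq

/-- hypothesis `hEK` of `abstract_level_raising`. -/
theorem hEK_ihara (K : Type*) [CommRing K] (u₁ u₂ : K ⊗[ℤ] Lat N)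
    (h : (lres₁ N q).baseChange K u₁ + (lres₂ N q).baseChange K u₂ = 0) :
    (latT N hl hlN).baseChange K ((latT N hl hlN).baseChange K u₁) =
        ((((l : ℤ) + 1) ^ 2 : ℤ) : K) • u₁ ∧
      (latT N hl hlN).baseChange K ((latT N hl hlN).baseChange K u₂) =
        ((((l : ℤ) + 1) ^ 2 : ℤ) : K) • u₂ := by
  have hN : 0 < N := Nat.pos_of_ne_zero (NeZero.ne N)
  have h0 : res₁ N q K (evK K N u₁) + res₂ N q K (evK K N u₂) = 0 := by
    rw [← wire_evK_lres₁, ← wire_evK_lres₂, ← map_add, h, map_zero]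
  have hG := gluedHom_of_res h0
  have hs : ∀ φ : Additive (Gamma0 N) →+ K,
      ((l + 1) ^ 2 : ℕ) • φ = ((((l : ℤ) + 1) ^ 2 : ℤ) : K) • φ := by
    intro φ
    refine AddMonoidHom.ext fun γ => ?_
    simp
  constructor
  · apply wire_evK_injective K N
    rw [wire_evK_latT, wire_evK_latT, map_smul, ← hs]
    exact Ihara.weak_ihara hN hq hqN hl hl2 hlN hlq (wire_evK_isParabolicHom K N u₁)
      (wire_evK_isParabolicHom K N u₂) hG
  · apply wire_evK_injective K N
    rw [wire_evK_latT, wire_evK_latT, map_smul, ← hs]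
    exact Ihara.weak_ihara₂ hN hq hqN hl hl2 hlN hlq (wire_evK_isParabolicHom K N u₁)
      (wire_evK_isParabolicHom K N u₂) hG

/-- hypothesis `hEZ` of `abstract_level_raising`. -/
theorem hEZ_ihara (p : ℕ) (w₁ w₂ : Lat N)
    (h : ∃ z, lres₁ N q w₁ + lres₂ N q w₂ = (p : ℤ) • z) :
    (∃ v, latT N hl hlN (latT N hl hlN w₁) - (((l : ℤ) + 1) ^ 2) • w₁ = (p : ℤ) • v) ∧
      (∃ v, latT N hl hlN (latT N hl hlN w₂) - (((l : ℤ) + 1) ^ 2) • w₂ = (p : ℤ) • v) := by
  have hN : 0 < N := Nat.pos_of_ne_zero (NeZero.ne N)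
  obtain ⟨z, hz⟩ := h
  set c : ℤ →+ ZMod p := Int.castAddHom (ZMod p) with hc
  set φ₁ : Additive (Gamma0 N) →+ ZMod p := c.comp (w₁ : Additive (Gamma0 N) →+ ℤ) with hφ₁
  set φ₂ : Additive (Gamma0 N) →+ ZMod p := c.comp (w₂ : Additive (Gamma0 N) →+ ℤ) with hφ₂
  have hp₁ : IsParabolicHom (Gamma0 N) φ₁ := by
    intro γ hγ
    have := w₁.2 γ hγ
    simp [hφ₁, this]
  have hp₂ : IsParabolicHom (Gamma0 N) φ₂ := by
    intro γ hγ
    have := w₂.2 γ hγ
    simp [hφ₂, this]
  have h0 : res₁ N q (ZMod p) φ₁ + res₂ N q (ZMod p) φ₂ = 0 := by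
    refine AddMonoidHom.ext fun γ => ?_
    obtain ⟨γ, rfl⟩ := Additive.ofMul.surjective γ
    have h1 := congrArg (fun y : Lat (N * q) =>
      (y : Additive (Gamma0 (N * q)) →+ ℤ) (Additive.ofMul γ)) hz
    simp only [Submodule.coe_add, coe_lres₁, coe_lres₂, AddMonoidHom.add_apply, res₁_apply,
      res₂_apply, Submodule.coe_smul, AddMonoidHom.smul_apply] at h1
    rw [AddMonoidHom.add_apply, res₁_apply, res₂_apply, AddMonoidHom.zero_apply]
    show c _ + c _ = 0
    rw [← map_add, h1]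
    simp [hc]
  have hG := gluedHom_of_res h0
  have key : ∀ (w : Lat N), cohT N hl hlN (ZMod p) (cohT N hl hlN (ZMod p)
      (c.comp (w : Additive (Gamma0 N) →+ ℤ))) = ((l + 1) ^ 2 : ℕ) • (c.comp (w : Additive (Gamma0 N) →+ ℤ)) →
      ∃ v, latT N hl hlN (latT N hl hlN w) - (((l : ℤ) + 1) ^ 2) • w = (p : ℤ) • v := by
    intro w hw
    have h1 : latRed N p (latT N hl hlN (latT N hl hlN w) - (((l : ℤ) + 1) ^ 2) • w) = 0 := by
      apply Subtype.ext
      rw [coe_latRed]
      have e1 : ∀ y : Lat N, c.comp ((latT N hl hlN y : Lat N) : Additive (Gamma0 N) →+ ℤ) =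
          cohT N hl hlN (ZMod p) (c.comp (y : Additive (Gamma0 N) →+ ℤ)) := fun y =>
        ((datumT N hl hlN).T_comp c _).symm
      refine AddMonoidHom.ext fun γ => ?_
      have h2 := DFunLike.congr_fun hw γ
      rw [← e1, ← e1] at h2
      simp only [AddMonoidHom.comp_apply, AddMonoidHom.nsmul_apply] at h2
      simp only [AddMonoidHom.comp_apply, Submodule.coe_sub, Submodule.coe_smul,
        AddMonoidHom.sub_apply, AddMonoidHom.smul_apply, map_sub, ZeroMemClass.coe_zero,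
        AddMonoidHom.zero_apply]
      rw [← hc, h2]
      simp [hc]
    obtain ⟨y, hy⟩ := (latRed_eq_zero_iff N p _).mp h1
    exact ⟨y, by rw [hy]; simp⟩
  exact ⟨key w₁ (Ihara.weak_ihara hN hq hqN hl hl2 hlN hlq hp₁ hp₂ hG),
    key w₂ (Ihara.weak_ihara₂ hN hq hqN hl hl2 hlN hlq hp₁ hp₂ hG)⟩

end wiring

end Fermat.Agent.S41
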