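import Fermat.Statements.S41
import Fermat.Agent.S41.ALR
import Fermat.Agent.S41.Wire.Ihara
import Fermat.Agent.S41.HeckeAlg
import Fermat.Agent.S41.Fin
import Fermat.Agent.S41.Input
import Fermat.Agent.S41.PD.Pairing
import Fermat.Agent.S41.PD.Adjunction
import Fermat.Agent.S41.QI.AtkinLehner

/-!
# S41 / wiring : level raising from the existence of one non-Eisenstein prime
-/

set_option autoImplicit false
open WeierstrassCurve WeierstrassCurve.Affine WeierstrassCurve.Affine.Point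
open scoped CongruenceSubgroup
open WeierstrassCurve

namespace Fermat.Agent.S41

open scoped TensorProduct
open Fermat.Agent.GAL.HK

theorem latT_mem_latAlg (M : ℕ) {ℓ : ℕ} (hℓ : ℓ.Prime) (hℓM : ¬ ℓ ∣ M) :
    latT M hℓ hℓM ∈ latAlg M :=
  Algebra.subset_adjoin (Or.inl ⟨_, hℓ, hℓM, rfl⟩)

theorem latU_mem_latAlg (M : ℕ) {r : ℕ} (hr : r.Prime) (hrM : r ∣ M) :
    latU M hr hrM ∈ latAlg M :=
  Algebra.subset_adjoin (Or.inr ⟨_, hr, hrM, rfl⟩)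

/-- a simultaneous eigenvector of all `T_ℓ`, `U_r` in `ℂ ⊗ Lat M` comes from a normalized
eigenform. -/
theorem exists_eigenform_of_eigen (M : ℕ) [NeZero M] (v : ℂ ⊗[ℤ] Lat M) (hv : v ≠ 0)
    (hT : ∀ (ℓ : ℕ) (hℓ : ℓ.Prime) (hℓM : ¬ ℓ ∣ M), ∃ c : ℂ,
      (latT M hℓ hℓM).baseChange ℂ v = c • v)
    (hU : ∀ (r : ℕ) (hr : r.Prime) (hrM : r ∣ M), ∃ c : ℂ,
      (latU M hr hrM).baseChange ℂ v = c • v) :
    ∃ g : CuspForm (CongruenceSubgroup.Gamma0 M) 2, g.IsNormalizedEigenform ∧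
      (∀ (ℓ : ℕ) (hℓ : ℓ.Prime) (hℓM : ¬ ℓ ∣ M),
        (latT M hℓ hℓM).baseChange ℂ v = ModularFormClass.qCoeff g ℓ • v) ∧
      (∀ (r : ℕ) (hr : r.Prime) (hrM : r ∣ M),
        (latU M hr hrM).baseChange ℂ v = ModularFormClass.qCoeff g r • v) := by
  classical
  choose cT hcT using hT
  choose cU hcU using hU
  obtain ⟨g, hg, hga⟩ := exists_eigenform_of_lat_eigenvector M v hv
    (fun ℓ => if hℓ : ℓ.Prime then (if hℓM : ℓ ∣ M then cU ℓ hℓ hℓM else cT ℓ hℓ hℓM) else 0)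
    (by
      intro ℓ hℓ hℓM
      simp only [dif_pos hℓ, dif_neg hℓM]
      exact hcT ℓ hℓ hℓM)
    (by
      intro r hr hrM
      simp only [dif_pos hr, dif_pos hrM]
      exact hcU r hr hrM)
  refine ⟨g, hg, ?_, ?_⟩
  · intro ℓ hℓ hℓM
    rw [hga ℓ hℓ]
    simp only [dif_pos hℓ, dif_neg hℓM]
    exact hcT ℓ hℓ hℓM
  · intro r hr hrM
    rw [hga r hr]
    simp only [dif_pos hr, dif_pos hrM]
    exact hcU r hr hrM

/-- a character of a Hecke algebra killing everything that maps into `O` takes a value `±1` on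
any `U` with `(U² - 1) L' ⊆ O`. -/
theorem lam_sq_eq_one {L' : Type*} [AddCommGroup L'] (𝕋 : Subalgebra ℤ (Module.End ℤ L'))
    (lam : 𝕋 →+* integralClosure ℤ ℂ) (O : Submodule ℤ L')
    (hnew : ∀ t : 𝕋, (∀ y, (t : Module.End ℤ L') y ∈ O) → lam t = 0)
    (U : Module.End ℤ L') (hU : U ∈ 𝕋) (h : ∀ y, U (U y) - y ∈ O) :
    ((lam ⟨U, hU⟩ : integralClosure ℤ ℂ) : ℂ) ^ 2 = 1 := by
  have h0 : lam ((⟨U, hU⟩ : 𝕋) * ⟨U, hU⟩ - 1) = 0 := hnew _ (fun y => h y)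
  rw [map_sub, map_mul, map_one, sub_eq_zero] at h0
  have h1 := congrArg (fun z : integralClosure ℤ ℂ => (z : ℂ)) h0
  rw [pow_two]
  exact h1

/-- the wiring of `abstract_level_raising`, over an abstract residue field, given one
non-Eisenstein prime `l`. -/
theorem exists_eigenvector {W : WeierstrassCurve ℤ}
    {p N q' : ℕ} [NeZero N] [NeZero q'] [NeZero (N * q')]
    (hp : p.Prime) (hp2 : p ≠ 2) (hq' : q'.Prime) (hq'N : ¬ q' ∣ N)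
    {l : ℕ} (hl : l.Prime) (hl2 : l ≠ 2) (hlp : l ≠ p) (hlq : l ≠ q') (hlN : ¬ l ∣ N)
    (hlgood : W.IsGoodPrimeFor l)
    (hlE : ¬ (p : ℤ) ∣ (W.apOfModel l) ^ 2 - ((l : ℤ) + 1) ^ 2)
    (f : CuspForm (CongruenceSubgroup.Gamma0 N) 2) (𝔪 : Ideal (integralClosure ℤ ℂ))
    (hf : f.IsNormalizedEigenform)
    (hcong : ∀ ℓ : ℕ, ℓ.Prime → W.IsGoodPrimeFor ℓ → ¬ ℓ ∣ N → ℓ ≠ p →
      ∃ a : integralClosure ℤ ℂ, (a : ℂ) = ModularFormClass.qCoeff f ℓ ∧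
        a - ((W.apOfModel ℓ : ℤ) : integralClosure ℤ ℂ) ∈ 𝔪)
    (hLR : ∃ a : integralClosure ℤ ℂ, (a : ℂ) = ModularFormClass.qCoeff f q' ∧
      a ^ 2 - ((q' : integralClosure ℤ ℂ) + 1) ^ 2 ∈ 𝔪)
    {K : Type} [Field K] [IsAlgClosed K] [CharP K p] (φ : integralClosure ℤ ℂ →+* K)
    (hφ : ∀ z ∈ 𝔪, φ z = 0) :
    ∃ (𝔪' : Ideal (integralClosure ℤ ℂ)) (v : ℂ ⊗[ℤ] Lat (N * q')), v ≠ 0 ∧
      𝔪'.IsMaximal ∧ (p : integralClosure ℤ ℂ) ∈ 𝔪' ∧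
      (∀ (ℓ : ℕ) (hℓ : ℓ.Prime) (hℓM : ¬ ℓ ∣ N * q'), ∃ c : integralClosure ℤ ℂ,
        (latT (N * q') hℓ hℓM).baseChange ℂ v = (c : ℂ) • v ∧
        (W.IsGoodPrimeFor ℓ → ℓ ≠ p → c - ((W.apOfModel ℓ : ℤ) : integralClosure ℤ ℂ) ∈ 𝔪')) ∧
      (∀ (r : ℕ) (hr : r.Prime) (hrM : r ∣ N * q'), ∃ c : ℂ,
        (latU (N * q') hr hrM).baseChange ℂ v = c • v ∧ (r = q' → c ^ 2 = 1)) := by
  classical
  have : Fact p.Prime := ⟨hp⟩
  have hdvd : ∀ {ℓ : ℕ}, ¬ ℓ ∣ N * q' → ¬ ℓ ∣ N := fun h h' => h (Dvd.dvd.mul_right h' _)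
  have hlM : ¬ l ∣ N * q' := by
    intro h
    rcases (Nat.Prime.dvd_mul hl).1 h with h | h
    · exact hlN h
    · exact hlq ((Nat.prime_dvd_prime_iff_eq hl hq').1 h)
  -- the pairings
  obtain ⟨B, hB, -⟩ := exists_pairing N
  obtain ⟨B', hB', hunim⟩ := exists_pairing (N * q')
  -- the input eigenvector
  obtain ⟨x, hx, hxT⟩ := exists_input_eigenvector N f hf φ
  obtain ⟨aq, haq, haq2⟩ := hLR
  obtain ⟨lam, 𝔪', v, hv, hlam, hmax', hpm', hcong', hnew⟩ :=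
    abstract_level_raising (L := Lat N) (L' := Lat (N * q')) (K := K) p
      (I := {ℓ : ℕ // ℓ.Prime ∧ W.IsGoodPrimeFor ℓ ∧ ¬ ℓ ∣ N * q' ∧ ℓ ≠ p})
      (fun i => latT N i.2.1 (hdvd i.2.2.2.1)) (fun i => W.apOfModel i.1) (latT N hq' hq'N) (q' : ℤ)
      (latAlg (N * q')) (latAlg_comm (N * q'))
      (fun i => latT (N * q') i.2.1 i.2.2.2.1) (fun i => latT_mem_latAlg _ i.2.1 i.2.2.2.1)
      (lres₁ N q') (lres₂ N q')
      (fun i x => latT_lres₁ N q' i.2.1 _ _ x) (fun i x => latT_lres₂ N q' i.2.1 _ _ x)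
      (latAlg_stab N q' hq' hq'N)
      B B' (pairing_11 N q' hq' hq'N B B' hB hB') (pairing_22 N q' hq' hq'N B B' hB hB')
      (pairing_12 N q' hq' hq'N B B' hB hB') (pairing_21 N q' hq' hq'N B B' hB hB')
      (fun i x y => pairing_latT_adj (N * q') B' hB' i.2.1 i.2.2.2.1 x y)
      (hunim p hp hp2)
      ⟨l, hl, hlgood, hlM, hlp⟩ (((l : ℤ) + 1) ^ 2) hlE
      (hEK_ihara hq' hq'N hl hl2 hlN hlq K) (hEZ_ihara hq' hq'N hl hl2 hlN hlq p)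
      x hx
      (by
        intro i
        obtain ⟨a, ha, ha'⟩ := hcong i.1 i.2.1 i.2.2.1 (hdvd i.2.2.2.1) i.2.2.2.2
        rw [hxT i.1 i.2.1 (hdvd i.2.2.2.1) a ha]
        have := hφ _ ha'
        rw [map_sub, map_intCast, sub_eq_zero] at this
        rw [this])
      (φ aq) (hxT q' hq' hq'N aq haq)
      (by
        have := hφ _ haq2
        rw [map_sub, map_pow, map_pow, map_add, map_natCast, map_one, sub_eq_zero] at this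
        rw [this]
        push_cast
        rfl)
  refine ⟨𝔪', v, hv, hmax', hpm', ?_, ?_⟩
  · intro ℓ hℓ hℓM
    exact ⟨_, hlam ⟨_, latT_mem_latAlg _ hℓ hℓM⟩,
      fun hgood hℓp => hcong' ⟨ℓ, hℓ, hgood, hℓM, hℓp⟩⟩
  · intro r hr hrM
    refine ⟨_, hlam ⟨_, latU_mem_latAlg _ hr hrM⟩, ?_⟩
    rintro rfl
    exact lam_sq_eq_one _ lam _ hnew _ _ (latU_sq_sub_mem_oldLat N r hr hq'N hrM)

/-- level raising, given one non-Eisenstein prime `l ∤ 2 p q' N`. -/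
theorem level_raising_of_nonEisenstein {W : WeierstrassCurve ℤ}
    {p N q' : ℕ} (hp : p.Prime) (hp2 : p ≠ 2) (hN : 0 < N) (hq' : q'.Prime) (hq'N : ¬ q' ∣ N)
    (hG : ∃ ℓ : ℕ, ℓ.Prime ∧ ℓ ∉ insert 2 (insert p (insert q' N.primeFactors)) ∧
      W.IsGoodPrimeFor ℓ ∧ ¬ (p : ℤ) ∣ (W.apOfModel ℓ) ^ 2 - ((ℓ : ℤ) + 1) ^ 2)
    (f : CuspForm (CongruenceSubgroup.Gamma0 N) 2) (𝔪 : Ideal (integralClosure ℤ ℂ))
    (hf : f.IsNormalizedEigenform) (hmax : 𝔪.IsMaximal) (hpm : (p : integralClosure ℤ ℂ) ∈ 𝔪)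
    (hcong : ∀ ℓ : ℕ, ℓ.Prime → W.IsGoodPrimeFor ℓ → ¬ ℓ ∣ N → ℓ ≠ p →
      ∃ a : integralClosure ℤ ℂ, (a : ℂ) = ModularFormClass.qCoeff f ℓ ∧
        a - ((W.apOfModel ℓ : ℤ) : integralClosure ℤ ℂ) ∈ 𝔪)
    (hLR : ∃ a : integralClosure ℤ ℂ, (a : ℂ) = ModularFormClass.qCoeff f q' ∧
      a ^ 2 - ((q' : integralClosure ℤ ℂ) + 1) ^ 2 ∈ 𝔪) :
    ∃ (g : CuspForm (CongruenceSubgroup.Gamma0 (N * q')) 2) (𝔪' : Ideal (integralClosure ℤ ℂ)),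
      g.IsNormalizedEigenform ∧ 𝔪'.IsMaximal ∧ (p : integralClosure ℤ ℂ) ∈ 𝔪' ∧
      (∀ ℓ : ℕ, ℓ.Prime → W.IsGoodPrimeFor ℓ → ¬ ℓ ∣ N * q' → ℓ ≠ p →
        ∃ a : integralClosure ℤ ℂ, (a : ℂ) = ModularFormClass.qCoeff g ℓ ∧
          a - ((W.apOfModel ℓ : ℤ) : integralClosure ℤ ℂ) ∈ 𝔪') ∧
      g.IsNewAt q' := by
  have : NeZero N := ⟨hN.ne'⟩
  have : NeZero q' := ⟨hq'.ne_zero⟩
  have : NeZero (N * q') := ⟨Nat.mul_ne_zero hN.ne' hq'.ne_zero⟩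
  obtain ⟨l, hl, hlT, hlgood, hlE⟩ := hG
  simp only [Finset.mem_insert, not_or] at hlT
  obtain ⟨hl2, hlp, hlq, hlN'⟩ := hlT
  have hlN : ¬ l ∣ N := fun h => hlN' (Nat.mem_primeFactors.2 ⟨hl, h, hN.ne'⟩)
  -- the residue field
  let _ : Field (integralClosure ℤ ℂ ⧸ 𝔪) := Ideal.Quotient.field 𝔪
  have hφ : ∀ z ∈ 𝔪, ((algebraMap (integralClosure ℤ ℂ ⧸ 𝔪)
      (AlgebraicClosure (integralClosure ℤ ℂ ⧸ 𝔪))).comp (Ideal.Quotient.mk 𝔪)) z = 0 := by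
    intro z hz
    rw [RingHom.comp_apply, Ideal.Quotient.eq_zero_iff_mem.2 hz, _root_.map_zero]
  have : CharP (AlgebraicClosure (integralClosure ℤ ℂ ⧸ 𝔪)) p := by
    rw [CharP.charP_iff_prime_eq_zero hp]
    have := hφ _ hpm
    rwa [map_natCast] at this
  obtain ⟨𝔪', v, hv, hmax', hpm', hT, hU⟩ :=
    exists_eigenvector hp hp2 hq' hq'N hl hl2 hlp hlq hlN hlgood hlE f 𝔪 hf hcong hLR _ hφ
  obtain ⟨g, hg, hgT, hgU⟩ := exists_eigenform_of_eigen (N * q') v hv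
    (fun ℓ hℓ hℓM => (hT ℓ hℓ hℓM).elim fun c hc => ⟨c, hc.1⟩)
    (fun r hr hrM => (hU r hr hrM).imp fun c hc => hc.1)
  have huniq : ∀ c c' : ℂ, c • v = c' • v → c = c' := by
    intro c c' h
    rw [← sub_eq_zero, ← sub_smul] at h
    exact sub_eq_zero.1 ((smul_eq_zero.1 h).resolve_right hv)
  refine ⟨g, 𝔪', hg, hmax', hpm', ?_, ?_⟩
  · intro ℓ hℓ hgood hℓM hℓp
    obtain ⟨c, hc, hc'⟩ := hT ℓ hℓ hℓM
    exact ⟨c, huniq _ _ (hc.symm.trans (hgT ℓ hℓ hℓM)), hc' hgood hℓp⟩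
  · show ModularFormClass.qCoeff g q' ^ 2 = 1
    obtain ⟨c, hc, hc'⟩ := hU q' hq' (Dvd.intro_left N rfl)
    rw [← huniq _ _ (hc.symm.trans (hgU q' hq' _))]
    exact hc' rfl

end Fermat.Agent.S41
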